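import Fermat.Agent.S31.Final
import Fermat.Prelude.Def_GaloisRep_LocalConditions

/-!
# Trace machinery for S34: unipotent inertia on the trunk gives unipotent inertia on a
Hecke-Galois datum
-/

set_option autoImplicit false

noncomputable section

namespace Fermat.Agent.S31Lib

open IsLocalRing Polynomial CuspForm
open Fermat.Agent.S53Lib
open Fermat.Agent.ESLib (TT0 IsESData redM)

variable {N : ℕ} [NeZero N] {S : Finset ℕ}

/-- Artin-Rees for the trunk. -/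
theorem exists_bound_trunk {p : ℕ} (hNS : ∀ q : ℕ, q.Prime → q ∣ N → q ∈ S) {r : ℕ}
    {Θ : TT0 N →+* Matrix (Fin r) (Fin r) ℤ} (hinj : Function.Injective Θ) :
    ∃ c : ℕ, ∀ (n : ℕ) (t : heckeAlgebra N 2 (↑S : Set ℕ)),
      redH r p (n + c) (Θ (incT hNS t)) = 0 →
      ∃ t' : heckeAlgebra N 2 (↑S : Set ℕ), t = (p : heckeAlgebra N 2 (↑S : Set ℕ)) ^ n * t' := by
  classical
  let Rm : heckeAlgebra N 2 (↑S : Set ℕ) →+ Module.End ℤ (Fin r → ℤ) :=
    ((Matrix.toLinAlgEquiv' (R := ℤ) (n := Fin r)).toRingEquiv.toRingHom.comp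
      (Θ.comp (incT hNS))).toAddMonoidHom
  have hRm : ∀ t φ, Rm t φ = (Θ (incT hNS t)).mulVec φ := fun _ _ => rfl
  have hRinj : Function.Injective Rm := by
    intro s t hst
    apply incT_injective hNS
    apply hinj
    exact (Matrix.toLinAlgEquiv' (R := ℤ) (n := Fin r)).injective hst
  obtain ⟨c, hc⟩ := exists_bound Rm hRinj p
  refine ⟨c, fun n t hzero => ?_⟩
  obtain ⟨t', ht'⟩ := hc n t (by
    intro ψ φ
    rw [hRm]
    set Mt := Θ (incT hNS t) with hMt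
    have hdiv : ∀ i j, ((p ^ (n + c) : ℕ) : ℤ) ∣ Mt i j := by
      intro i j
      have := congrFun (congrFun hzero i) j
      rw [← ZMod.intCast_zmod_eq_zero_iff_dvd]
      exact this
    choose B hB using hdiv
    have : Mt.mulVec φ = ((p ^ (n + c) : ℕ) : ℤ) • (Matrix.of B).mulVec φ := by
      ext i
      simp only [Matrix.mulVec, dotProduct, Pi.smul_apply, smul_eq_mul, Finset.mul_sum,
        Matrix.of_apply]
      refine Finset.sum_congr rfl fun j _ => ?_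
      rw [hB i j, mul_assoc]
    rw [this, map_smul, zsmul_eq_mul]
    have : (((p ^ (n + c) : ℕ) : ℤ) : ZMod (p ^ (n + c))) = 0 := by
      rw [Int.cast_natCast]
      exact ZMod.natCast_self _
    rw [this, zero_mul])
  exact ⟨t', by rw [ht', nsmul_eq_mul, Nat.cast_pow]⟩

/-- Newton sums of Hecke operators on the trunk. -/
theorem newton_trunk {p : ℕ} (hNS : ∀ q : ℕ, q.Prime → q ∣ N → q ∈ S) {r : ℕ}
    {Θ : TT0 N →+* Matrix (Fin r) (Fin r) ℤ}
    {ρ : (n : ℕ) → GQ →* Matrix (Fin r) (Fin r) (ZMod (p ^ n))} (hES : IsESData N p r Θ ρ)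
    (m : ℕ) {ℓ : ℕ} (hℓ : ℓ.Prime) (hℓN : ¬ ℓ ∣ N) (hℓS : ℓ ∉ (↑S : Set ℕ)) (hℓp : ℓ ≠ p)
    (A : ValuationSubring (AlgebraicClosure ℚ)) (τ : GQ) (hA : A.LiesOverPrime ℓ)
    (hτ : A.IsFrobeniusAt τ ℓ) (k : ℕ) :
    redH r p m (Θ (incT hNS (newton (heckeAlgebra.T hℓ hℓN hℓS) (ℓ : _) k))) =
      ρ m (τ ^ k) + (ℓ : Matrix (Fin r) (Fin r) (ZMod (p ^ m))) ^ k * ρ m ((τ ^ k)⁻¹) := by
  let f : heckeAlgebra N 2 (↑S : Set ℕ) →+* Matrix (Fin r) (Fin r) (ZMod (p ^ m)) :=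
    (redH r p m).comp (Θ.comp (incT hNS))
  have e1 := hES.es m ℓ hℓ hℓN hℓp A hA τ hτ
  have hgh : ρ m τ * ρ m τ⁻¹ = 1 := by rw [← map_mul, mul_inv_cancel, map_one]
  have hhg : ρ m τ⁻¹ * ρ m τ = 1 := by rw [← map_mul, inv_mul_cancel, map_one]
  have e2 : f (heckeAlgebra.T hℓ hℓN hℓS) =
      ρ m τ + (ℓ : Matrix (Fin r) (Fin r) (ZMod (p ^ m))) * ρ m τ⁻¹ := by
    have e3 : f (heckeAlgebra.T hℓ hℓN hℓS) =
        redM p m (Θ (heckeAlgebra.T hℓ hℓN hℓN)) := rfl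
    have e4 := congrArg (· * ρ m τ⁻¹) e1
    simp only [add_mul, sub_mul, mul_assoc, hgh, mul_one, zero_mul] at e4
    rw [e3, eq_comm, ← sub_eq_zero, ← e4]
    abel
  have := map_newton_eq f _ ℓ _ _ hgh hhg e2 k
  rw [map_pow, ← inv_pow, map_pow]
  exact this

theorem det_sub_det_mem {A : Type} [CommRing A] (I : Ideal A) (r : GQ →* M2 A) (g u : GQ)
    (hu : ∀ i j, (r u - 1) i j ∈ I) : (r (g * u)).det - (r g).det ∈ I := by
  have h1 : (r (g * u)).det - (r g).det = (r g).det * ((r u).det - 1) := by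
    rw [map_mul, Matrix.det_mul]; ring
  rw [h1]
  refine Ideal.mul_mem_left _ _ ?_
  have h00 := hu 0 0
  have h01 := hu 0 1
  have h11 := hu 1 1
  simp only [Matrix.sub_apply, Matrix.one_apply_eq, Matrix.one_apply_ne (show (0 : Fin 2) ≠ 1 by decide),
    sub_zero] at h00 h01 h11
  have h2 : (r u).det - 1 = (r u 0 0 - 1) * r u 1 1 + (r u 1 1 - 1) - r u 0 1 * r u 1 0 := by
    rw [Matrix.det_fin_two]; ring
  rw [h2]
  exact Ideal.sub_mem _ (Ideal.add_mem _ (Ideal.mul_mem_right _ _ h00) h11)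
    (Ideal.mul_mem_right _ _ h01)

section main

variable {p : ℕ}
  {𝒪 : Type} [CommRing 𝒪] [IsDomain 𝒪] [IsDiscreteValuationRing 𝒪]
  [IsAdicComplete (IsLocalRing.maximalIdeal 𝒪) 𝒪]
  {θ : CuspForm.heckeAlgebra N 2 (↑S : Set ℕ) →+* IsLocalRing.ResidueField 𝒪}
  {T : Type} [CommRing T] [IsLocalRing T] [IsNoetherianRing T]
  [IsAdicComplete (IsLocalRing.maximalIdeal T) T] [Algebra 𝒪 T] [IsLocalHom (algebraMap 𝒪 T)]
  [Module.Finite 𝒪 T] [Module.Free 𝒪 T]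

/-- If `σ` lies in an inertia group at `q ≠ p` and acts unipotently on the trunk, then it acts
unipotently in every Hecke-Galois datum. -/
theorem charpoly_eq_of_unipotent_trunk (hp : p.Prime)
    (hp𝒪 : (p : 𝒪) ∈ IsLocalRing.maximalIdeal 𝒪) (hpS : p ∈ S)
    (hNS : ∀ q : ℕ, q.Prime → q ∣ N → q ∈ S) {r : ℕ}
    {Θ : TT0 N →+* Matrix (Fin r) (Fin r) ℤ}
    {ρ : (n : ℕ) → GQ →* Matrix (Fin r) (Fin r) (ZMod (p ^ n))} (hES : IsESData N p r Θ ρ)
    (H : CuspForm.HeckeGaloisRepDatum N (↑S : Set ℕ) 𝒪 θ T)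
    (q : ℕ) (hq : q.Prime) (hqp : q ≠ p)
    (P : ValuationSubring (AlgebraicClosure ℚ)) (hP : P.LiesOverPrime q)
    (σ : GQ) (hσ : σ ∈ P.inertiaSubgroupIn ℚ)
    (hu : ∀ m, (ρ m σ - 1) * (ρ m σ - 1) = 0) :
    LinearMap.charpoly (H.ρ.ρ σ) = (X - 1) ^ 2 := by
  obtain ⟨r', hc, ⟨e⟩⟩ := exists_ofMat_isEquiv H.ρ
  have hpT : (p : T) ∈ maximalIdeal T := by
    have h1 : (p : T) = algebraMap 𝒪 T (p : 𝒪) := by simp
    rw [h1]
    exact map_nonunit (algebraMap 𝒪 T) _ hp𝒪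
  have hconj : ∀ τ : GQ, LinearMap.charpoly (H.ρ.ρ τ) = (r' τ).charpoly := by
    intro τ
    have hconj : e.toLinearEquiv.conj (H.ρ.ρ τ) = (ofMat r' hc).ρ τ := by
      refine LinearMap.ext fun x => ?_
      rw [LinearEquiv.conj_apply_apply, e.map_apply τ (e.toLinearEquiv.symm x),
        LinearEquiv.apply_symm_apply]
    rw [← LinearEquiv.charpoly_conj e.toLinearEquiv (H.ρ.ρ τ), hconj]
    exact Matrix.charpoly_toLin' (r' τ)
  have hchar : ∀ (ℓ : ℕ) (hℓ : ℓ.Prime) (hℓN : ¬ ℓ ∣ N) (hℓS : ℓ ∉ (↑S : Set ℕ))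
      (A : ValuationSubring (AlgebraicClosure ℚ)), A.LiesOverPrime ℓ → ∀ τ : GQ,
      A.IsFrobeniusAt τ ℓ →
      (r' τ).charpoly = X ^ 2 - C (H.π (heckeAlgebra.T hℓ hℓN hℓS)) * X + C ((ℓ : T)) := by
    intro ℓ hℓ hℓN hℓS A hA τ hτ
    rw [← H.charpoly_frob ℓ hℓ hℓN hℓS A hA τ hτ, hconj]
  obtain ⟨c, hcb⟩ := exists_bound_trunk (p := p) (S := S) hNS hES.inj
  have hkrull : (⨅ n : ℕ, maximalIdeal T ^ n) = ⊥ :=
    Ideal.iInf_pow_eq_bot_of_isLocalRing _ (Ideal.IsPrime.ne_top inferInstance)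
  -- the key congruences
  have key : ∀ n : ℕ, (r' σ).trace - 2 ∈ maximalIdeal T ^ n ∧
      (r' σ).det - 1 ∈ maximalIdeal T ^ n := by
    intro n
    set m := n + c with hm
    obtain ⟨L₁, hL₁, hLr⟩ := hc n
    obtain ⟨L₂, hL₂, hLρ⟩ := hES.level m
    obtain ⟨ω, ⟨Lω, hLωfd, hLω⟩, hωF, hωI⟩ := exists_cyclo_pow p hp m
    have hfd : FiniteDimensional ℚ (L₁ ⊔ L₂ ⊔ Lω : IntermediateField ℚ (AlgebraicClosure ℚ)) := by
      have : FiniteDimensional ℚ (L₁ ⊔ L₂ : IntermediateField ℚ (AlgebraicClosure ℚ)) :=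
        IntermediateField.finiteDimensional_sup _ _
      exact IntermediateField.finiteDimensional_sup _ _
    obtain ⟨U, hUo, hUn, hU⟩ := exists_open_normal_le _ hfd
    obtain ⟨ℓ, A, τ, k, -, hℓ, hℓS, hA, hτ, hk, -⟩ := weakCheb U hUo hUn σ S
    have hℓN : ¬ ℓ ∣ N := fun h => hℓS (hNS ℓ hℓ h)
    have hℓS' : ℓ ∉ (↑S : Set ℕ) := by simpa using hℓS
    have hℓp : ℓ ≠ p := fun h => hℓS (h ▸ hpS)
    have hu1 : ∀ i j, (r' (σ⁻¹ * τ ^ k) - 1) i j ∈ maximalIdeal T ^ n :=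
      hLr _ fun x hx => hU _ hk x (le_sup_left (b := Lω) (le_sup_left (b := L₂) hx))
    have hu2 : ρ m (σ⁻¹ * τ ^ k) = 1 :=
      hLρ _ fun x hx => hU _ hk x (le_sup_left (b := Lω) (le_sup_right (a := L₁) hx))
    have hu3 : ω (σ⁻¹ * τ ^ k) = 1 :=
      hLω _ fun x hx => hU _ hk x (le_sup_right (a := L₁ ⊔ L₂) hx)
    have hτσ : τ ^ k = σ * (σ⁻¹ * τ ^ k) := by group
    -- cyclotomic
    have hcyc : ((ℓ : ZMod (p ^ m)) ^ k) = 1 := by
      rw [map_mul, map_inv, hωI q hq hqp P hP σ hσ, inv_one, one_mul, map_pow] at hu3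
      have e2 := congrArg (fun u : (ZMod (p ^ m))ˣ => (u : ZMod (p ^ m))) hu3
      simp only [Units.val_pow_eq_pow_val, Units.val_one] at e2
      rwa [hωF ℓ hℓ hℓp A hA τ hτ] at e2
    have hcycM : (ℓ : Matrix (Fin r) (Fin r) (ZMod (p ^ m))) ^ k = 1 := by
      have := congrArg (algebraMap (ZMod (p ^ m)) (Matrix (Fin r) (Fin r) (ZMod (p ^ m)))) hcyc
      simpa using this
    -- the trunk
    have hg : ρ m (τ ^ k) = ρ m σ := by rw [hτσ, map_mul, hu2, mul_one]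
    have hginv : ρ m ((τ ^ k)⁻¹) = ρ m σ⁻¹ := by
      have e1 : ρ m ((τ ^ k)⁻¹) * ρ m σ = 1 := by
        rw [← hg, ← map_mul, inv_mul_cancel, map_one]
      have e2 : ρ m σ * ρ m σ⁻¹ = 1 := by rw [← map_mul, mul_inv_cancel, map_one]
      calc ρ m ((τ ^ k)⁻¹) = ρ m ((τ ^ k)⁻¹) * (ρ m σ * ρ m σ⁻¹) := by rw [e2, mul_one]
        _ = ρ m σ⁻¹ := by rw [← mul_assoc, e1, one_mul]
    have htwo : ρ m σ + ρ m σ⁻¹ = 2 := by
      have e2 : ρ m σ * ρ m σ⁻¹ = 1 := by rw [← map_mul, mul_inv_cancel, map_one]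
      have e3 := congrArg (· * ρ m σ⁻¹) (hu m)
      simp only [sub_mul, mul_sub, one_mul, mul_one, mul_assoc, e2, zero_mul] at e3
      rw [← sub_eq_zero, ← e3, ← one_add_one_eq_two]
      abel
    have hzero : redH r p (n + c) (Θ (incT hNS
        (newton (heckeAlgebra.T hℓ hℓN hℓS') (ℓ : _) k - 2))) = 0 := by
      rw [map_sub, map_sub, map_sub, newton_trunk hNS hES m hℓ hℓN hℓS' hℓp A τ hA hτ k, hg,
        hginv, hcycM, one_mul, htwo]
      simp [map_ofNat]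
    obtain ⟨t', ht'⟩ := hcb n _ hzero
    constructor
    · have e₁ : (r' (τ ^ k)).trace - (r' σ).trace ∈ maximalIdeal T ^ n := by
        rw [hτσ]
        exact trace_sub_trace_mem _ r' _ _ hu1
      have e₂ : (r' (τ ^ k)).trace - 2 ∈ maximalIdeal T ^ n := by
        rw [map_pow, trace_pow_eq_newton _ _ _ (hchar ℓ hℓ hℓN hℓS' A hA τ hτ)]
        have : newton (H.π (heckeAlgebra.T hℓ hℓN hℓS')) (ℓ : T) k - 2 =
            H.π (newton (heckeAlgebra.T hℓ hℓN hℓS') (ℓ : _) k - 2) := by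
          rw [map_sub, map_newton, map_natCast, map_ofNat]
        rw [this, ht', map_mul, map_pow, map_natCast]
        exact Ideal.mul_mem_right _ _ (Ideal.pow_mem_pow hpT n)
      have : (r' σ).trace - 2 = ((r' (τ ^ k)).trace - 2) - ((r' (τ ^ k)).trace - (r' σ).trace) := by
        ring
      rw [this]
      exact Ideal.sub_mem _ e₂ e₁
    · have e₁ : (r' (τ ^ k)).det - (r' σ).det ∈ maximalIdeal T ^ n := by
        rw [hτσ]
        exact det_sub_det_mem _ r' _ _ hu1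
      have hdet : (r' τ).det = (ℓ : T) := by
        have h1 := Matrix.det_eq_sign_charpoly_coeff (r' τ)
        rw [hchar ℓ hℓ hℓN hℓS' A hA τ hτ] at h1
        simpa [coeff_X, coeff_C] using h1
      have e₂ : (r' (τ ^ k)).det - 1 ∈ maximalIdeal T ^ n := by
        rw [map_pow, Matrix.det_pow, hdet]
        have h1 : ((p ^ m : ℕ) : ℤ) ∣ (ℓ : ℤ) ^ k - 1 := by
          rw [← ZMod.intCast_zmod_eq_zero_iff_dvd]
          push_cast
          rw [hcyc, sub_self]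
        obtain ⟨b, hb⟩ := h1
        have h2 : (ℓ : T) ^ k - 1 = (p : T) ^ m * (b : T) := by
          have := congrArg (Int.cast : ℤ → T) hb
          push_cast at this
          exact this
        rw [h2]
        exact Ideal.mul_mem_right _ _
          (Ideal.pow_le_pow_right (Nat.le_add_right n c) (Ideal.pow_mem_pow hpT m))
      have : (r' σ).det - 1 = ((r' (τ ^ k)).det - 1) - ((r' (τ ^ k)).det - (r' σ).det) := by ring
      rw [this]
      exact Ideal.sub_mem _ e₂ e₁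
  have htr : (r' σ).trace = 2 := by
    rw [← sub_eq_zero, ← Ideal.mem_bot, ← hkrull, Ideal.mem_iInf]
    exact fun n => (key n).1
  have hdet : (r' σ).det = 1 := by
    rw [← sub_eq_zero, ← Ideal.mem_bot, ← hkrull, Ideal.mem_iInf]
    exact fun n => (key n).2
  rw [hconj, Matrix.charpoly_fin_two, htr, hdet]
  simp only [map_ofNat, map_one]
  ring

/-- S34 from the trunk plus `(σ - 1) ^ 2 = 0` on the trunk for `σ` in inertia at `q`. -/
theorem isUnipotentOnInertiaAt_of_trunk (hp : p.Prime)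
    (hp𝒪 : (p : 𝒪) ∈ IsLocalRing.maximalIdeal 𝒪) (hpS : p ∈ S)
    (hNS : ∀ q : ℕ, q.Prime → q ∣ N → q ∈ S) {r : ℕ}
    {Θ : TT0 N →+* Matrix (Fin r) (Fin r) ℤ}
    {ρ : (n : ℕ) → GQ →* Matrix (Fin r) (Fin r) (ZMod (p ^ n))} (hES : IsESData N p r Θ ρ)
    (H : CuspForm.HeckeGaloisRepDatum N (↑S : Set ℕ) 𝒪 θ T)
    (q : ℕ) (hq : q.Prime) (hqp : q ≠ p)
    (hu : ∀ (m : ℕ) (P : ValuationSubring (AlgebraicClosure ℚ)), P.LiesOverPrime q →
      ∀ σ ∈ P.inertiaSubgroupIn ℚ, (ρ m σ - 1) * (ρ m σ - 1) = 0) :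
    H.ρ.IsUnipotentOnInertiaAt q := fun P hP σ hσ =>
  charpoly_eq_of_unipotent_trunk hp hp𝒪 hpS hNS hES H q hq hqp P hP σ hσ
    fun m => hu m P hP σ hσ

end main

end Fermat.Agent.S31Lib
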