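import Fermat.Agent.S31.Trunk
import Fermat.Agent.Lib.Chebotarev.Main

/-!
# S31 from the trunk of the Eichler-Shimura cluster
-/

set_option autoImplicit false

namespace Fermat.Agent.S31Lib

open Fermat.Agent.S53Lib (GQ)
open Fermat.Agent.ESLib (TT0 IsESData)

theorem weakCheb : WeakCheb := fun U hU hn σ S =>
  Fermat.Agent.ChebLib.weak_chebotarev U hU hn σ S

variable {p : ℕ} {N : ℕ} [NeZero N] {S : Finset ℕ}
  {𝒪 : Type} [CommRing 𝒪] [IsDomain 𝒪] [IsDiscreteValuationRing 𝒪]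
  [IsAdicComplete (IsLocalRing.maximalIdeal 𝒪) 𝒪]
  {θ : CuspForm.heckeAlgebra N 2 (↑S : Set ℕ) →+* IsLocalRing.ResidueField 𝒪}
  {T : Type} [CommRing T] [IsLocalRing T] [IsNoetherianRing T]
  [IsAdicComplete (IsLocalRing.maximalIdeal T) T] [Algebra 𝒪 T] [IsLocalHom (algebraMap 𝒪 T)]
  [Module.Finite 𝒪 T] [Module.Free 𝒪 T]

theorem isUnramifiedAt_of_trunk
    (htrunk : ∃ (r : ℕ) (Θ : TT0 N →+* Matrix (Fin r) (Fin r) ℤ)
      (ρ : (n : ℕ) → GQ →* Matrix (Fin r) (Fin r) (ZMod (p ^ n))), IsESData N p r Θ ρ)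
    (hp : p.Prime)
    (hp𝒪 : (p : 𝒪) ∈ IsLocalRing.maximalIdeal 𝒪) (hpS : p ∈ S)
    (hNS : ∀ q : ℕ, q.Prime → q ∣ N → q ∈ S)
    (H : CuspForm.HeckeGaloisRepDatum N (↑S : Set ℕ) 𝒪 θ T)
    (q : ℕ) (hq : q.Prime) (hqS : q ∉ S) :
    H.ρ.IsUnramifiedAt q := by
  obtain ⟨r, Θ, ρ, hES⟩ := htrunk
  exact isUnramifiedAt_of_traceRigid weakCheb (traceRigid_of_isESData hp hpS hNS hES) hp𝒪 hNS H q
    hq hqS

end Fermat.Agent.S31Lib
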