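import Fermat.Agent.S53.Irr

/-!
# S31, algebraic part

* `newton a d k` : the `k`-th Newton power sum of the roots of `X ^ 2 - a X + d`;
* `trace_pow_eq_newton` : `tr (M ^ k) = newton a d k` if `charpoly M = X ^ 2 - a X + d`;
* `eq_zero_of_trace_mul_eq_zero` : for a matrix representation over a local ring whose residual
  representation is absolutely irreducible, a matrix `X` with `tr (X r(g)) = 0` for all `g`
  vanishes (Burnside + Nakayama).
-/

set_option autoImplicit false
set_option linter.unusedSectionVars false
set_option linter.unusedSimpArgs false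
set_option linter.unusedVariables false

noncomputable section

namespace Fermat.Agent.S31Lib

open IsLocalRing Polynomial
open Fermat.Agent.S53Lib

/-- Newton power sums of the roots of `X ^ 2 - a X + d`. -/
def newton {R : Type*} [CommRing R] (a d : R) : ℕ → R
  | 0 => 2
  | 1 => a
  | (k + 2) => a * newton a d (k + 1) - d * newton a d k

@[simp] theorem newton_zero {R : Type*} [CommRing R] (a d : R) : newton a d 0 = 2 := rfl
@[simp] theorem newton_one {R : Type*} [CommRing R] (a d : R) : newton a d 1 = a := rfl
theorem newton_add_two {R : Type*} [CommRing R] (a d : R) (k : ℕ) :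
    newton a d (k + 2) = a * newton a d (k + 1) - d * newton a d k := rfl

theorem map_newton {R R' : Type*} [CommRing R] [CommRing R'] (φ : R →+* R') (a d : R) (k : ℕ) :
    φ (newton a d k) = newton (φ a) (φ d) k := by
  induction k using Nat.strong_induction_on with
  | _ k ih =>
    match k with
    | 0 => simp [map_ofNat]
    | 1 => simp
    | (k + 2) =>
      rw [newton_add_two, newton_add_two, map_sub, map_mul, map_mul, ih (k + 1) (by omega),
        ih k (by omega)]

/-- `x ^ k + y ^ k` is the Newton sum for `a = x + y`, `d = x y`. -/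
theorem newton_add_mul {R : Type*} [CommRing R] (x y : R) (k : ℕ) :
    newton (x + y) (x * y) k = x ^ k + y ^ k := by
  induction k using Nat.strong_induction_on with
  | _ k ih =>
    match k with
    | 0 => simp; norm_num
    | 1 => simp
    | (k + 2) =>
      rw [newton_add_two, ih (k + 1) (by omega), ih k (by omega)]
      ring

theorem trace_pow_eq_newton {A : Type} [CommRing A] (M : M2 A) (a d : A)
    (h : M.charpoly = X ^ 2 - C a * X + C d) (k : ℕ) :
    (M ^ k).trace = newton a d k := by
  have htr : M.trace = a := by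
    rw [Matrix.trace_eq_neg_charpoly_coeff, h]
    simp [coeff_X, coeff_C]
  have hCH : M ^ 2 = a • M - d • (1 : M2 A) := by
    have h1 := Matrix.aeval_self_charpoly M
    rw [h] at h1
    simp only [map_add, map_sub, map_mul, map_pow, aeval_X, aeval_C] at h1
    rw [Algebra.algebraMap_eq_smul_one, Algebra.algebraMap_eq_smul_one, smul_mul_assoc,
      one_mul] at h1
    rw [← sub_eq_zero, ← h1]
    abel
  induction k using Nat.strong_induction_on with
  | _ k ih =>
    match k with
    | 0 => simp [Matrix.trace, Fin.sum_univ_two]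
    | 1 => simpa using htr
    | (k + 2) =>
      rw [newton_add_two, ← ih (k + 1) (by omega), ← ih k (by omega)]
      have : M ^ (k + 2) = a • M ^ (k + 1) - d • M ^ k := by
        rw [pow_add, hCH, mul_sub, mul_smul_comm, mul_smul_comm, mul_one, ← pow_succ]
      rw [this, Matrix.trace_sub, Matrix.trace_smul, Matrix.trace_smul, smul_eq_mul, smul_eq_mul]

/-- the rank one identity for two by two matrices -/
theorem mul_mul_self_eq {K : Type} [CommRing K] (b Y : M2 K) :
    b * Y * b = (Y * b).trace • b - b.det • Y.adjugate := by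
  ext i j
  fin_cases i <;> fin_cases j <;>
    simp [Matrix.mul_apply, Fin.sum_univ_two, Matrix.trace, Matrix.det_fin_two,
      Matrix.adjugate_fin_two] <;> ring

theorem eq_zero_of_mulVec_eq_zero {K : Type} [CommRing K] (c : M2 K)
    (h : ∀ x : Fin 2 → K, c.mulVec x = 0) : c = 0 := by
  have h3 : Matrix.toLin' c = 0 := LinearMap.ext fun x => by
    rw [Matrix.toLin'_apply, h x]; rfl
  have := congrArg LinearMap.toMatrix' h3
  simpa using this

/-- an irreducible representation has no non zero vector killed by all `c * R h`, `c ≠ 0` -/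
theorem eq_zero_of_forall_mul_mulVec {K : Type} [Field K] (R : GQ →* M2 K) (hR : IrrMat R)
    (c : M2 K) (hc : c ≠ 0) (x : Fin 2 → K) (hx : ∀ h, (c * R h).mulVec x = 0) : x = 0 := by
  let W : Submodule K (Fin 2 → K) :=
    { carrier := {x | ∀ h, (c * R h).mulVec x = 0}
      add_mem' := fun {a b} ha hb h => by
        rw [Matrix.mulVec_add, ha h, hb h, add_zero]
      zero_mem' := fun h => Matrix.mulVec_zero _
      smul_mem' := fun t a ha h => by
        rw [Matrix.mulVec_smul, ha h, smul_zero] }
  have hW := hR W (by
    intro σ y hy h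
    rw [Matrix.mulVec_mulVec, mul_assoc, ← map_mul]
    exact hy (h * σ))
  rcases hW with h | h
  · have : x ∈ W := hx
    rw [h, Submodule.mem_bot] at this
    exact this
  · exfalso
    apply hc
    apply eq_zero_of_mulVec_eq_zero
    intro y
    have : y ∈ W := by rw [h]; trivial
    have h1 := this 1
    rwa [map_one, mul_one] at h1

/-- Burnside's theorem for two dimensional absolutely irreducible representations, in the form:
the trace form restricted to the image of the group is non degenerate. -/
theorem burnside_trace {k : Type} [Field k] (r : GQ →* M2 k)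
    (hR : IrrMat (mapMat (algebraMap k (AlgebraicClosure k)) r))
    (X : M2 k) (hX : ∀ g, (X * r g).trace = 0) : X = 0 := by
  set K := AlgebraicClosure k with hK
  set R := mapMat (algebraMap k K) r with hRdef
  set XK : M2 K := X.map (algebraMap k K) with hXKdef
  have hXK : ∀ g, (XK * R g).trace = 0 := by
    intro g
    have h1 := congrArg (algebraMap k K) (hX g)
    rw [map_zero] at h1
    rw [← h1, hRdef, mapMat_apply', hXKdef, ← Matrix.map_mul]
    simp only [Matrix.trace, Fin.sum_univ_two, Matrix.diag_apply, Matrix.map_apply, map_add]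
  obtain ⟨g₀, hg₀⟩ := exists_lowerLeft_ne_zero r hR
  obtain ⟨μ, hμ⟩ : ∃ μ : K, (R g₀ - Matrix.scalar (Fin 2) μ).det = 0 := by
    obtain ⟨μ, hμ⟩ := Module.End.exists_eigenvalue (Matrix.toLin' (R g₀))
    obtain ⟨v, hv⟩ := hμ.exists_hasEigenvector
    refine ⟨μ, ?_⟩
    rw [← Matrix.exists_mulVec_eq_zero_iff]
    refine ⟨v, hv.2, ?_⟩
    have h1 : (R g₀).mulVec v = μ • v := by
      have := hv.apply_eq_smul
      rwa [Matrix.toLin'_apply] at this
    have h2 : (Matrix.scalar (Fin 2) μ).mulVec v = μ • v := by
      ext i
      simp [Matrix.scalar_apply, Matrix.mulVec, dotProduct, Matrix.diagonal_apply,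
        Fin.sum_univ_two]
    rw [Matrix.sub_mulVec, h1, h2, sub_self]
  set b : M2 K := R g₀ - Matrix.scalar (Fin 2) μ with hb
  have hb0 : b ≠ 0 := by
    intro h0
    have h1 := congrFun (congrFun h0 1) 0
    simp only [hb, Matrix.sub_apply, Matrix.scalar_apply, Matrix.zero_apply] at h1
    rw [Matrix.diagonal_apply_ne _ (by decide), sub_zero, hRdef, mapMat_apply] at h1
    exact hg₀ ((algebraMap k K).injective (by rw [h1, map_zero]))
  have hsc : Matrix.scalar (Fin 2) μ = μ • (1 : M2 K) := by
    ext i j
    simp [Matrix.scalar_apply, Matrix.diagonal_apply, Matrix.one_apply]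
  have h1 : ∀ g h, (XK * (R g * b * R h)).trace = 0 := by
    intro g h
    have : R g * b * R h = R (g * g₀ * h) - μ • R (g * h) := by
      rw [hb, hsc, mul_sub, sub_mul, map_mul, map_mul, map_mul, mul_smul_comm, mul_one,
        smul_mul_assoc]
    rw [this, mul_sub, Matrix.trace_sub, mul_smul_comm, Matrix.trace_smul, hXK, hXK, smul_zero,
      sub_zero]
  have h2 : ∀ g h, b * (R h * XK * R g) * b = 0 := by
    intro g h
    rw [mul_mul_self_eq, hμ, zero_smul, sub_zero]
    have : (R h * XK * R g * b).trace = (XK * (R g * b * R h)).trace := by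
      rw [mul_assoc, mul_assoc, Matrix.trace_mul_comm]
      simp only [mul_assoc]
    rw [this, h1, zero_smul]
  have h3 : ∀ g, XK * R g * b = 0 := by
    intro g
    apply eq_zero_of_mulVec_eq_zero
    intro y
    apply eq_zero_of_forall_mul_mulVec R hR b hb0
    intro h
    rw [Matrix.mulVec_mulVec]
    have : b * R h * (XK * R g * b) = b * (R h * XK * R g) * b := by
      simp only [mul_assoc]
    rw [this, h2, Matrix.zero_mulVec]
  have h4 : XK = 0 := by
    by_contra hne
    apply hb0
    apply eq_zero_of_mulVec_eq_zero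
    intro y
    apply eq_zero_of_forall_mul_mulVec R hR XK hne
    intro g
    rw [Matrix.mulVec_mulVec, h3, Matrix.zero_mulVec]
  ext i j
  have h5 := congrFun (congrFun h4 i) j
  simp only [hXKdef, Matrix.map_apply, Matrix.zero_apply] at h5
  rw [Matrix.zero_apply]
  exact (algebraMap k K).injective (by rw [h5, map_zero])

/-- every linear functional on two by two matrices is a trace functional -/
theorem exists_trace_functional {k : Type} [CommRing k] (f : M2 k →ₗ[k] k) :
    ∃ X : M2 k, ∀ Y, f Y = (X * Y).trace := by
  refine ⟨Matrix.of fun j i => f (Matrix.single i j 1), fun Y => ?_⟩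
  conv_lhs => rw [Matrix.matrix_eq_sum_single Y]
  have hs : ∀ i j : Fin 2, Matrix.single i j (Y i j) = Y i j • Matrix.single i j (1 : k) := by
    intro i j
    rw [Matrix.smul_single, smul_eq_mul, mul_one]
  simp only [Fin.sum_univ_two, map_add, hs, map_smul, smul_eq_mul, Matrix.trace,
    Matrix.diag_apply, Matrix.mul_apply, Matrix.of_apply]
  ring

theorem span_range_eq_top {k : Type} [Field k] (r : GQ →* M2 k)
    (hR : IrrMat (mapMat (algebraMap k (AlgebraicClosure k)) r)) :
    Submodule.span k (Set.range r) = ⊤ := by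
  by_contra hne
  obtain ⟨f, hf0, hf⟩ := Submodule.exists_le_ker_of_lt_top _ (lt_top_iff_ne_top.mpr hne)
  obtain ⟨X, hX⟩ := exists_trace_functional f
  have h0 : X = 0 := burnside_trace r hR X fun g => by
    rw [← hX]
    exact hf (Submodule.subset_span ⟨g, rfl⟩)
  apply hf0
  ext1 Y
  rw [hX, h0, zero_mul, Matrix.trace_zero]; rfl

theorem mem_smul_top_matrix {A : Type} [CommRing A] (I : Ideal A) (Y : M2 A)
    (hY : ∀ i j, Y i j ∈ I) : Y ∈ I • (⊤ : Submodule A (M2 A)) := by
  rw [Matrix.matrix_eq_sum_single Y]
  refine Submodule.sum_mem _ fun i _ => Submodule.sum_mem _ fun j _ => ?_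
  have hs : Matrix.single i j (Y i j) = Y i j • Matrix.single i j (1 : A) := by
    rw [Matrix.smul_single, smul_eq_mul, mul_one]
  rw [hs]
  exact Submodule.smul_mem_smul (hY i j) Submodule.mem_top

/-- Nakayama: the image of the group spans the full matrix algebra. -/
theorem span_range_eq_top_of_residue {A : Type} [CommRing A] [IsLocalRing A] (r : GQ →* M2 A)
    (h : Submodule.span (ResidueField A) (Set.range (mapMat (residue A) r)) = ⊤) :
    Submodule.span A (Set.range r) = ⊤ := by
  have hlift : ∀ Z ∈ Submodule.span (ResidueField A) (Set.range (mapMat (residue A) r)),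
      ∃ Y ∈ Submodule.span A (Set.range r), Y.map (residue A) = Z := by
    intro Z hZ
    induction hZ using Submodule.span_induction with
    | mem Z hZ =>
      obtain ⟨g, rfl⟩ := hZ
      exact ⟨r g, Submodule.subset_span ⟨g, rfl⟩, rfl⟩
    | zero => exact ⟨0, Submodule.zero_mem _, by ext i j; simp⟩
    | add Z₁ Z₂ _ _ h₁ h₂ =>
      obtain ⟨Y₁, hY₁, rfl⟩ := h₁
      obtain ⟨Y₂, hY₂, rfl⟩ := h₂
      exact ⟨Y₁ + Y₂, Submodule.add_mem _ hY₁ hY₂, by ext i j; simp⟩
    | smul c Z _ h₁ =>
      obtain ⟨Y₁, hY₁, rfl⟩ := h₁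
      obtain ⟨a, rfl⟩ := residue_surjective c
      exact ⟨a • Y₁, Submodule.smul_mem _ _ hY₁, by ext i j; simp⟩
  rw [eq_top_iff]
  refine Submodule.le_of_le_smul_of_le_jacobson_bot (I := maximalIdeal A)
    (Module.Finite.fg_top) (by rw [jacobson_eq_maximalIdeal ⊥ bot_ne_top]) ?_
  intro Y _
  obtain ⟨Y', hY', hYY'⟩ := hlift (Y.map (residue A)) (by rw [h]; trivial)
  have h1 : Y = Y' + (Y - Y') := by abel
  rw [h1]
  refine Submodule.add_mem_sup hY' (mem_smul_top_matrix _ _ fun i j => ?_)
  rw [← residue_eq_zero_iff, Matrix.sub_apply, map_sub, sub_eq_zero]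
  exact (congrFun (congrFun hYY' i) j).symm

/-- the trace criterion over a local ring -/
theorem eq_zero_of_trace_mul_eq_zero {A : Type} [CommRing A] [IsLocalRing A] (r : GQ →* M2 A)
    (hR : IrrMat (mapMat (algebraMap (ResidueField A) (AlgebraicClosure (ResidueField A)))
      (mapMat (residue A) r)))
    (X : M2 A) (hX : ∀ g, (X * r g).trace = 0) : X = 0 := by
  have hspan := span_range_eq_top_of_residue r (span_range_eq_top _ hR)
  have hall : ∀ Y ∈ Submodule.span A (Set.range r), (X * Y).trace = 0 := by
    intro Y hY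
    induction hY using Submodule.span_induction with
    | mem Z hZ =>
      obtain ⟨g, rfl⟩ := hZ
      exact hX g
    | zero => simp
    | add Z₁ Z₂ _ _ h₁ h₂ => rw [mul_add, Matrix.trace_add, h₁, h₂, add_zero]
    | smul c Z _ h₁ => rw [mul_smul_comm, Matrix.trace_smul, h₁, smul_zero]
  rw [Matrix.ext_iff_trace_mul_right]
  intro Y
  rw [hall Y (by rw [hspan]; trivial), zero_mul, Matrix.trace_zero]

end Fermat.Agent.S31Lib
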