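import Fermat.Agent.S31.TRDefs
import Fermat.Agent.Cheb.FrobZeta

/-!
# S31 library, leaf (CY): the cyclotomic character modulo `p ^ m`
-/

set_option autoImplicit false
set_option linter.style.haveILetI false

noncomputable section

namespace Fermat.Agent.S31Lib

open Fermat.Agent.S53Lib (GQ)

theorem cy_autToPow_eq {n : ℕ} [NeZero n] {ζ : AlgebraicClosure ℚ} (hζ : IsPrimitiveRoot ζ n)
    (σ : GQ) (a : ℕ) (h : σ ζ = ζ ^ a) :
    ((hζ.autToPow ℚ σ : (ZMod n)ˣ) : ZMod n) = (a : ZMod n) := by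
  have hspec := hζ.autToPow_spec ℚ σ
  rw [h] at hspec
  have hfin : IsOfFinOrder ζ := isOfFinOrder_iff_pow_eq_one.2 ⟨n, NeZero.pos n, hζ.pow_eq_one⟩
  have h1 := hfin.pow_eq_pow_iff_modEq.1 hspec
  rw [← hζ.eq_orderOf, ← ZMod.natCast_eq_natCast_iff, ZMod.natCast_zmod_val] at h1
  exact h1

/-- (CY) the cyclotomic character modulo `p ^ m` -/
theorem exists_cyclo_pow (p : ℕ) (hp : p.Prime) (m : ℕ) :
    ∃ ω : GQ →* (ZMod (p ^ m))ˣ,
      (∃ L : IntermediateField ℚ (AlgebraicClosure ℚ), FiniteDimensional ℚ L ∧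
        ∀ σ : GQ, (∀ x ∈ L, σ x = x) → ω σ = 1) ∧
      (∀ ℓ : ℕ, ℓ.Prime → ℓ ≠ p → ∀ A : ValuationSubring (AlgebraicClosure ℚ),
        A.LiesOverPrime ℓ → ∀ σ : GQ, A.IsFrobeniusAt σ ℓ →
          ((ω σ : (ZMod (p ^ m))ˣ) : ZMod (p ^ m)) = (ℓ : ZMod (p ^ m))) ∧
      (∀ ℓ : ℕ, ℓ.Prime → ℓ ≠ p → ∀ A : ValuationSubring (AlgebraicClosure ℚ),
        A.LiesOverPrime ℓ → ∀ σ ∈ A.inertiaSubgroupIn ℚ, ω σ = 1) := by
  haveI : NeZero (p ^ m) := ⟨pow_ne_zero m hp.ne_zero⟩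
  obtain ⟨ζ, hζ⟩ := HasEnoughRootsOfUnity.exists_primitiveRoot (AlgebraicClosure ℚ) (p ^ m)
  have hint : IsIntegral ℤ ζ := hζ.isIntegral (NeZero.pos _)
  have hnd : ∀ ℓ : ℕ, ℓ.Prime → ℓ ≠ p → ¬ ℓ ∣ p ^ m := fun ℓ hℓ hℓp h =>
    hℓp ((Nat.prime_dvd_prime_iff_eq hℓ hp).mp (hℓ.dvd_of_dvd_pow h))
  have hone : ∀ σ : GQ, σ ζ = ζ → hζ.autToPow ℚ σ = 1 := by
    intro σ h
    apply Units.ext
    rw [cy_autToPow_eq hζ σ 1 (by rw [h, pow_one]), Nat.cast_one, Units.val_one]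
  refine ⟨hζ.autToPow ℚ, ?_, ?_, ?_⟩
  · refine ⟨IntermediateField.adjoin ℚ {ζ},
      IntermediateField.adjoin.finiteDimensional (hint.tower_top), ?_⟩
    intro σ hσ
    exact hone σ (hσ ζ (IntermediateField.mem_adjoin_simple_self ℚ ζ))
  · intro ℓ hℓ hℓp A hA σ hσ
    exact cy_autToPow_eq hζ σ ℓ
      (Fermat.Agent.ChebLib.frobenius_zeta A σ ℓ (p ^ m) hℓ hA hσ (hnd ℓ hℓ hℓp) ζ hζ.pow_eq_one)
  · intro ℓ hℓ hℓp A hA σ hσ
    obtain ⟨s, hs, rfl⟩ := hσ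
    apply hone
    have hζA : ζ ∈ A := Fermat.Agent.FrobLib.integral_mem_valuationSubring A hint
    have hs' : MulSemiringAction.toRingAut (A.decompositionSubgroup ℚ)
        (IsLocalRing.ResidueField A) s = 1 := hs
    have h0 : s • IsLocalRing.residue A ⟨ζ, hζA⟩ = IsLocalRing.residue A ⟨ζ, hζA⟩ := by
      have := congrArg (fun f => f (IsLocalRing.residue A ⟨ζ, hζA⟩)) hs'
      simpa using this
    rw [← IsLocalRing.ResidueField.residue_smul, ← sub_eq_zero, ← map_sub,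
      IsLocalRing.residue_eq_zero_iff] at h0
    apply Fermat.Agent.ChebLib.Z.eq_of_sub_mem_nonunits A hℓ hA (hnd ℓ hℓ hℓp) _ hζ.pow_eq_one
    · rw [ValuationSubring.mem_nonunits_iff_exists_mem_maximalIdeal]
      exact ⟨_, h0⟩
    · rw [← map_pow, hζ.pow_eq_one, map_one]

end Fermat.Agent.S31Lib
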