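import Fermat.Agent.S31.Algebra
import Fermat.Prelude.Def_CuspForm_HeckeGaloisRepDatum

/-!
# S31 from two inputs

* `WeakCheb` : the weak Chebotarev (Frobenius density) theorem,
* `TraceRigid p N S` : "the pseudo-representation with values in the Hecke algebra is unramified
  outside `S`", phrased purely in terms of Newton sums of Hecke operators.
-/

set_option autoImplicit false
set_option linter.unusedSectionVars false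
set_option linter.unusedSimpArgs false
set_option linter.unusedVariables false

noncomputable section

namespace Fermat.Agent.S31Lib

open IsLocalRing Polynomial CuspForm
open Fermat.Agent.S53Lib

/-- the statement of the weak Chebotarev theorem -/
def WeakCheb : Prop :=
  ∀ (U : Subgroup GQ) (_ : IsOpen (U : Set GQ)) (_ : U.Normal) (σ : GQ) (S : Finset ℕ),
    ∃ (ℓ : ℕ) (A : ValuationSubring (AlgebraicClosure ℚ)) (τ : GQ) (k j : ℕ),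
      ℓ.Prime ∧ ℓ ∉ S ∧ A.LiesOverPrime ℓ ∧ A.IsFrobeniusAt τ ℓ ∧ σ⁻¹ * τ ^ k ∈ U ∧
        τ⁻¹ * σ ^ j ∈ U

/-- Rigidity of the Hecke-algebra valued pseudo-representation: modulo `p ^ n`, the Newton sums
of `X ^ 2 - T_ℓ X + ℓ` only depend on the image of the power of Frobenius in a finite quotient
of the Galois group *modulo inertia at the primes outside `S`*. -/
def TraceRigid (p N : ℕ) [NeZero N] (S : Finset ℕ) : Prop :=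
  ∀ n : ℕ, ∃ U : Subgroup GQ, IsOpen (U : Set GQ) ∧ U.Normal ∧
    ∀ (ℓ₁ ℓ₂ : ℕ) (h₁ : ℓ₁.Prime) (h₂ : ℓ₂.Prime) (hN₁ : ¬ ℓ₁ ∣ N) (hN₂ : ¬ ℓ₂ ∣ N)
      (hS₁ : ℓ₁ ∉ (↑S : Set ℕ)) (hS₂ : ℓ₂ ∉ (↑S : Set ℕ))
      (A₁ A₂ : ValuationSubring (AlgebraicClosure ℚ)) (τ₁ τ₂ : GQ),
      A₁.LiesOverPrime ℓ₁ → A₂.LiesOverPrime ℓ₂ → A₁.IsFrobeniusAt τ₁ ℓ₁ →
      A₂.IsFrobeniusAt τ₂ ℓ₂ →
      ∀ (k₁ k₂ q : ℕ), q.Prime → q ∉ S →
      ∀ P : ValuationSubring (AlgebraicClosure ℚ), P.LiesOverPrime q →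
      ∀ σ ∈ P.inertiaSubgroupIn ℚ, (τ₁ ^ k₁)⁻¹ * σ * τ₂ ^ k₂ ∈ U →
      ∃ t : heckeAlgebra N 2 (↑S : Set ℕ),
        newton (heckeAlgebra.T h₁ hN₁ hS₁ : heckeAlgebra N 2 (↑S : Set ℕ)) (ℓ₁ : _) k₁ -
          newton (heckeAlgebra.T h₂ hN₂ hS₂ : heckeAlgebra N 2 (↑S : Set ℕ)) (ℓ₂ : _) k₂ =
          (p : heckeAlgebra N 2 (↑S : Set ℕ)) ^ n * t

theorem s31_isAlgClosure_Qb : IsAlgClosure ℚ (AlgebraicClosure ℚ) :=
  ⟨inferInstance, AlgebraicClosure.isAlgebraic ℚ⟩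

theorem exists_open_normal_le (L : IntermediateField ℚ (AlgebraicClosure ℚ))
    (hL : FiniteDimensional ℚ L) :
    ∃ U : Subgroup GQ, IsOpen (U : Set GQ) ∧ U.Normal ∧ ∀ σ ∈ U, ∀ x ∈ L, σ x = x := by
  have : IsAlgClosure ℚ (AlgebraicClosure ℚ) := s31_isAlgClosure_Qb
  have : Normal ℚ (AlgebraicClosure ℚ) := IsAlgClosure.normal ℚ (AlgebraicClosure ℚ)
  let E := IntermediateField.normalClosure ℚ L (AlgebraicClosure ℚ)
  have : FiniteDimensional ℚ E := normalClosure.is_finiteDimensional ℚ L (AlgebraicClosure ℚ)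
  have : Normal ℚ E := normalClosure.normal ℚ L (AlgebraicClosure ℚ)
  refine ⟨E.fixingSubgroup, E.fixingSubgroup_isOpen, ?_, fun σ hσ x hx => ?_⟩
  · rw [← IntermediateField.restrictNormalHom_ker]
    infer_instance
  · exact (IntermediateField.mem_fixingSubgroup_iff E σ).mp hσ x (L.le_normalClosure hx)

section main

variable {p : ℕ} {N : ℕ} [NeZero N] {S : Finset ℕ}
  {𝒪 : Type} [CommRing 𝒪] [IsDomain 𝒪] [IsDiscreteValuationRing 𝒪]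
  [IsAdicComplete (IsLocalRing.maximalIdeal 𝒪) 𝒪]
  {θ : CuspForm.heckeAlgebra N 2 (↑S : Set ℕ) →+* IsLocalRing.ResidueField 𝒪}
  {T : Type} [CommRing T] [IsLocalRing T] [IsNoetherianRing T]
  [IsAdicComplete (IsLocalRing.maximalIdeal T) T] [Algebra 𝒪 T] [IsLocalHom (algebraMap 𝒪 T)]
  [Module.Finite 𝒪 T] [Module.Free 𝒪 T]

/-- traces of elements which are congruent modulo an open subgroup on which `r ≡ 1` -/
theorem trace_sub_trace_mem {A : Type} [CommRing A] (I : Ideal A) (r : GQ →* M2 A) (g u : GQ)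
    (hu : ∀ i j, (r u - 1) i j ∈ I) : (r (g * u)).trace - (r g).trace ∈ I := by
  have h1 : r (g * u) - r g = r g * (r u - 1) := by rw [map_mul, mul_sub, mul_one]
  rw [← Matrix.trace_sub, h1, Matrix.trace]
  refine Ideal.sum_mem _ fun i _ => ?_
  rw [Matrix.diag_apply, Matrix.mul_apply]
  exact Ideal.sum_mem _ fun j _ => Ideal.mul_mem_left _ _ (hu j i)

theorem isUnramifiedAt_of_traceRigid (hcheb : WeakCheb) (hTR : TraceRigid p N S)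
    (hp𝒪 : (p : 𝒪) ∈ IsLocalRing.maximalIdeal 𝒪)
    (hNS : ∀ q : ℕ, q.Prime → q ∣ N → q ∈ S)
    (H : CuspForm.HeckeGaloisRepDatum N (↑S : Set ℕ) 𝒪 θ T)
    (q : ℕ) (hq : q.Prime) (hqS : q ∉ S) :
    H.ρ.IsUnramifiedAt q := by
  obtain ⟨r, hc, ⟨e⟩⟩ := exists_ofMat_isEquiv H.ρ
  have hirr : IrrMat (mapMat (algebraMap (ResidueField T) (AlgebraicClosure (ResidueField T)))
      (mapMat (residue T) r)) :=
    irrMat_of_absIrr H.ρ.residual H.residual_absIrr (mapMat (residue T) r) hc.factors_residue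
      (resEquiv_trans (isEquiv_residual ⟨e⟩) (ofMat_residual r hc _))
  have hpT : (p : T) ∈ maximalIdeal T := by
    have h1 : (p : T) = algebraMap 𝒪 T (p : 𝒪) := by simp
    rw [h1]
    exact map_nonunit (algebraMap 𝒪 T) _ hp𝒪
  -- characteristic polynomials of Frobenius elements, in matrix form
  have hchar : ∀ (ℓ : ℕ) (hℓ : ℓ.Prime) (hℓN : ¬ ℓ ∣ N) (hℓS : ℓ ∉ (↑S : Set ℕ))
      (A : ValuationSubring (AlgebraicClosure ℚ)), A.LiesOverPrime ℓ → ∀ τ : GQ,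
      A.IsFrobeniusAt τ ℓ →
      (r τ).charpoly = X ^ 2 - C (H.π (heckeAlgebra.T hℓ hℓN hℓS)) * X + C ((ℓ : T)) := by
    intro ℓ hℓ hℓN hℓS A hA τ hτ
    have hconj : e.toLinearEquiv.conj (H.ρ.ρ τ) = (ofMat r hc).ρ τ := by
      refine LinearMap.ext fun x => ?_
      rw [LinearEquiv.conj_apply_apply, e.map_apply τ (e.toLinearEquiv.symm x),
        LinearEquiv.apply_symm_apply]
    rw [← H.charpoly_frob ℓ hℓ hℓN hℓS A hA τ hτ,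
      ← LinearEquiv.charpoly_conj e.toLinearEquiv (H.ρ.ρ τ), hconj]
    exact (Matrix.charpoly_toLin' (r τ)).symm
  have htrace : ∀ (ℓ : ℕ) (hℓ : ℓ.Prime) (hℓN : ¬ ℓ ∣ N) (hℓS : ℓ ∉ (↑S : Set ℕ))
      (A : ValuationSubring (AlgebraicClosure ℚ)), A.LiesOverPrime ℓ → ∀ τ : GQ,
      A.IsFrobeniusAt τ ℓ → ∀ k : ℕ,
      (r (τ ^ k)).trace = H.π (newton (heckeAlgebra.T hℓ hℓN hℓS) (ℓ : _) k) := by
    intro ℓ hℓ hℓN hℓS A hA τ hτ k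
    rw [map_pow, trace_pow_eq_newton _ _ _ (hchar ℓ hℓ hℓN hℓS A hA τ hτ), map_newton,
      map_natCast]
  intro P hP σ hσ
  -- it suffices to compare traces
  suffices hmain : ∀ g : GQ, (r (σ * g)).trace = (r g).trace by
    have h1 : r σ - 1 = 0 := eq_zero_of_trace_mul_eq_zero r hirr _ fun g => by
      rw [sub_mul, one_mul, ← map_mul, Matrix.trace_sub, hmain g, sub_self]
    have h2 : r σ = 1 := sub_eq_zero.mp h1
    ext1 x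
    apply e.toLinearEquiv.injective
    rw [e.map_apply]
    have h3 : ∀ v : Fin 2 → T, (ofMat r hc).ρ σ v = v := fun v => by
      rw [ofMat_ρ_apply, h2, Matrix.one_mulVec]
    exact h3 _
  intro g
  rw [← sub_eq_zero]
  have hkrull : (⨅ n : ℕ, maximalIdeal T ^ n) = ⊥ :=
    Ideal.iInf_pow_eq_bot_of_isLocalRing _ (Ideal.IsPrime.ne_top inferInstance)
  rw [← Ideal.mem_bot, ← hkrull, Ideal.mem_iInf]
  intro n
  obtain ⟨L, hL, hLr⟩ := hc n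
  obtain ⟨U₁, hU₁o, hU₁n, hU₁⟩ := exists_open_normal_le L hL
  obtain ⟨U₂, hU₂o, hU₂n, hU₂⟩ := hTR n
  have hUo : IsOpen ((U₁ ⊓ U₂ : Subgroup GQ) : Set GQ) := by
    rw [Subgroup.coe_inf]
    exact hU₁o.inter hU₂o
  have hUn : (U₁ ⊓ U₂).Normal := inferInstance
  obtain ⟨ℓ₁, A₁, τ₁, k₁, -, hℓ₁, hℓ₁S, hA₁, hτ₁, hk₁, -⟩ := hcheb _ hUo hUn (σ * g) S
  obtain ⟨ℓ₂, A₂, τ₂, k₂, -, hℓ₂, hℓ₂S, hA₂, hτ₂, hk₂, -⟩ := hcheb _ hUo hUn g S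
  have hN₁ : ¬ ℓ₁ ∣ N := fun h => hℓ₁S (hNS ℓ₁ hℓ₁ h)
  have hN₂ : ¬ ℓ₂ ∣ N := fun h => hℓ₂S (hNS ℓ₂ hℓ₂ h)
  have hS₁ : ℓ₁ ∉ (↑S : Set ℕ) := by simpa using hℓ₁S
  have hS₂ : ℓ₂ ∉ (↑S : Set ℕ) := by simpa using hℓ₂S
  have hrel : (τ₁ ^ k₁)⁻¹ * σ * τ₂ ^ k₂ ∈ U₂ := by
    have h1 : (τ₁ ^ k₁)⁻¹ * σ * τ₂ ^ k₂ = ((σ * g)⁻¹ * τ₁ ^ k₁)⁻¹ * (g⁻¹ * τ₂ ^ k₂) := by group
    rw [h1]
    exact U₂.mul_mem (U₂.inv_mem hk₁.2) hk₂.2
  obtain ⟨t, ht⟩ := hU₂ ℓ₁ ℓ₂ hℓ₁ hℓ₂ hN₁ hN₂ hS₁ hS₂ A₁ A₂ τ₁ τ₂ hA₁ hA₂ hτ₁ hτ₂ k₁ k₂ q hq hqS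
    P hP σ hσ hrel
  have e₁ : (r (τ₁ ^ k₁)).trace - (r (σ * g)).trace ∈ maximalIdeal T ^ n := by
    have h1 : τ₁ ^ k₁ = (σ * g) * ((σ * g)⁻¹ * τ₁ ^ k₁) := by group
    rw [h1]
    exact trace_sub_trace_mem _ r _ _ (hLr _ (hU₁ _ hk₁.1))
  have e₂ : (r (τ₂ ^ k₂)).trace - (r g).trace ∈ maximalIdeal T ^ n := by
    have h1 : τ₂ ^ k₂ = g * (g⁻¹ * τ₂ ^ k₂) := by group
    rw [h1]
    exact trace_sub_trace_mem _ r _ _ (hLr _ (hU₁ _ hk₂.1))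
  have e₃ : (r (τ₁ ^ k₁)).trace - (r (τ₂ ^ k₂)).trace ∈ maximalIdeal T ^ n := by
    rw [htrace ℓ₁ hℓ₁ hN₁ hS₁ A₁ hA₁ τ₁ hτ₁, htrace ℓ₂ hℓ₂ hN₂ hS₂ A₂ hA₂ τ₂ hτ₂, ← map_sub, ht,
      map_mul, map_pow, map_natCast]
    exact Ideal.mul_mem_right _ _ (Ideal.pow_mem_pow hpT n)
  have : (r (σ * g)).trace - (r g).trace =
      ((r (τ₁ ^ k₁)).trace - (r (τ₂ ^ k₂)).trace) - ((r (τ₁ ^ k₁)).trace - (r (σ * g)).trace) +
        ((r (τ₂ ^ k₂)).trace - (r g).trace) := by ring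
  rw [this]
  exact Ideal.add_mem _ (Ideal.sub_mem _ e₃ e₁) e₂

end main

end Fermat.Agent.S31Lib
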