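import Fermat.Agent.S31.TRDefs
import Fermat.Agent.S21.Parabolic

/-!
# S31 library, leaf (PE): periods vanish on elliptic and parabolic elements
-/

set_option autoImplicit false

noncomputable section

namespace Fermat.Agent.S31Lib

open CongruenceSubgroup Matrix.SpecialLinearGroup ModularCurve ModularCurve.Period
open scoped MatrixGroups

theorem pe_sq (M : Matrix (Fin 2) (Fin 2) ℤ) (hdet : M.det = 1) :
    M * M = M.trace • M - 1 := by
  rw [Matrix.det_fin_two] at hdet
  ext i j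
  rw [Matrix.mul_apply, Fin.sum_univ_two, Matrix.sub_apply, Matrix.smul_apply, smul_eq_mul,
    Matrix.trace_fin_two]
  fin_cases i <;> fin_cases j
  · simp only [Fin.zero_eta, Matrix.one_apply_eq]
    linear_combination -hdet
  · show M 0 0 * M 0 1 + M 0 1 * M 1 1 = (M 0 0 + M 1 1) * M 0 1 - (1 : Matrix _ _ ℤ) 0 1
    rw [Matrix.one_apply_ne (zero_ne_one : (0 : Fin 2) ≠ 1)]
    ring
  · show M 1 0 * M 0 0 + M 1 1 * M 1 0 = (M 0 0 + M 1 1) * M 1 0 - (1 : Matrix _ _ ℤ) 1 0
    rw [Matrix.one_apply_ne (one_ne_zero : (1 : Fin 2) ≠ 0)]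
    ring
  · simp only [Fin.mk_one, Matrix.one_apply_eq]
    linear_combination -hdet

theorem pe_pow_twelve (M : Matrix (Fin 2) (Fin 2) ℤ) (hdet : M.det = 1)
    (ht : M.trace = 0 ∨ M.trace = 1 ∨ M.trace = -1) : M ^ 12 = 1 := by
  have h := pe_sq M hdet
  rcases ht with ht | ht | ht
  · rw [ht, zero_smul, zero_sub] at h
    have h2 : M ^ 2 = -1 := by rw [pow_two, h]
    rw [show (12 : ℕ) = 2 * 6 from rfl, pow_mul, h2]
    norm_num
  · rw [ht, one_smul] at h
    have h3 : M ^ 3 = -1 := by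
      rw [pow_succ, pow_two, h, sub_mul, h, one_mul]
      abel
    rw [show (12 : ℕ) = 3 * 4 from rfl, pow_mul, h3]
    norm_num
  · rw [ht, neg_one_smul] at h
    have h3 : M ^ 3 = 1 := by
      rw [pow_succ, pow_two, h, sub_mul, neg_mul, h, one_mul]
      abel
    rw [show (12 : ℕ) = 3 * 4 from rfl, pow_mul, h3, one_pow]

/-- (PE) periods vanish on elliptic and parabolic elements -/
theorem periodMap_eq_zero_of_trace {N : ℕ} [NeZero N] (γ : Gamma0 N)
    (h : ((γ : SL(2, ℤ)) : Matrix (Fin 2) (Fin 2) ℤ).trace ^ 2 ≤ 4)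
    (f : CuspForm (Gamma0 N) 2) : periodMap N f (Additive.ofMul γ) = 0 := by
  set t := ((γ : SL(2, ℤ)) : Matrix (Fin 2) (Fin 2) ℤ).trace with ht
  by_cases h4 : t ^ 2 = 4
  · exact (mem_parabolicHoms_iff.mp (Fermat.Agent.S21Lib.periodMap_mem_parabolicHoms f)) γ h4
  have ht' : t = 0 ∨ t = 1 ∨ t = -1 := by
    have h1 : -2 ≤ t := by nlinarith
    have h2 : t ≤ 2 := by nlinarith
    have h3 : t ≠ 2 := by rintro h5; rw [h5] at h4; norm_num at h4
    have h5 : t ≠ -2 := by rintro h5; rw [h5] at h4; norm_num at h4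
    omega
  have h12 : γ ^ 12 = 1 := by
    apply Subtype.ext
    apply Subtype.ext
    have := pe_pow_twelve ((γ : SL(2, ℤ)) : Matrix (Fin 2) (Fin 2) ℤ) (γ : SL(2, ℤ)).det_coe ht'
    simpa using this
  have h5 : (12 : ℕ) • periodMap N f (Additive.ofMul γ) = 0 := by
    rw [← map_nsmul, ← ofMul_pow, h12, ofMul_one, map_zero]
  rw [nsmul_eq_mul] at h5
  exact (mul_eq_zero.mp h5).resolve_left (by norm_num)

end Fermat.Agent.S31Lib
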