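import Fermat.Agent.S31.TRDefs
import Fermat.Agent.S22.Main.Final
import Fermat.Agent.S16.Lower.Transfer

/-!
# S31 library, leaf (PH): Hecke transfer for the period map
-/

set_option autoImplicit false

noncomputable section

namespace Fermat.Agent.S31Lib

open CongruenceSubgroup Matrix.SpecialLinearGroup ModularCurve
open P2MW.S_ModularForm_heckeT_slash_eq_self_of_mem_Gamma0.ModularForm.HeckeSlashInvariance
open Fermat.Agent.S22Main
open scoped MatrixGroups

/-- (PH) Hecke transfer for the period map -/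
theorem periodMap_heckeTLin {N ℓ : ℕ} [NeZero N] (hℓ : ℓ.Prime) (hℓN : ¬ ℓ ∣ N) (γ : Gamma0 N)
    (γ' : OnePoint (ZMod ℓ) → Gamma0 N) (h : IsTransfer N ℓ γ γ')
    (f : CuspForm (Gamma0 N) 2) :
    periodMap N (CuspForm.heckeTLin 2 hℓ hℓN f) (Additive.ofMul γ) =
      ∑ᶠ x, periodMap N f (Additive.ofMul (γ' x)) := by
  have : Fact ℓ.Prime := ⟨hℓ⟩
  have h0 : ℓ ≠ 0 := hℓ.ne_zero
  obtain ⟨π, hπ⟩ := h
  rw [finsum_eq_sum_of_fintype]
  refine Fermat.Agent.S16Lib.periodMap_hecke (heckeRep ℓ) (ℓ : ℝ) (by exact_mod_cast hℓ.pos)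
    ?_ ?_ (CuspForm.heckeTLin 2 hℓ hℓN) ?_ γ π γ' hπ f
  · intro x
    induction x using OnePoint.rec with
    | infty => exact val_det_heckeDiagMatrix h0
    | coe j => exact val_det_heckeMatrix h0 _
  · intro x
    induction x using OnePoint.rec with
    | infty =>
      show (ModularForm.heckeDiagMatrix ℓ).val 1 0 = 0
      rw [ModularForm.val_heckeDiagMatrix h0]; simp
    | coe j =>
      show (ModularForm.heckeMatrix ℓ j.val).val 1 0 = 0
      rw [ModularForm.val_heckeMatrix h0]; simp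
  · intro f
    rw [CuspForm.coe_heckeTLin_apply, heckeT_eq_sum_onePoint]

end Fermat.Agent.S31Lib
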