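import Fermat.Agent.S31.TRDefs
import Fermat.Agent.S21.Pre

/-!
# S31 library, leaf (PS): periods separate cusp forms
-/

set_option autoImplicit false

noncomputable section

namespace Fermat.Agent.S31Lib

open CongruenceSubgroup Matrix.SpecialLinearGroup ModularCurve ModularCurve.Period
open scoped MatrixGroups

/-- (PS) periods separate cusp forms -/
theorem eq_zero_of_periodMap_eq_zero {N : ℕ} [NeZero N] (f : CuspForm (Gamma0 N) 2)
    (h : periodMap N f = 0) : f = 0 := by
  obtain ⟨pml, hpml, heq⟩ := periodHomPair_def N (Fermat.Agent.S21Lib.existsPeriodMapLinear N)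
  have h1 : periodHomPair N (f, 0) = periodHomPair N 0 := by
    rw [map_zero, heq]
    simp only [LinearMap.coprod_apply, LinearMap.comp_apply, hpml, h, map_zero, add_zero]
  have h2 := Fermat.Agent.S21Lib.periodHomPair_injective N h1
  exact congrArg Prod.fst h2

end Fermat.Agent.S31Lib
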