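import Fermat.Agent.S31.Algebra

/-!
# S31: abstract lemmas for the proof of `TraceRigid`
-/

set_option autoImplicit false

noncomputable section

namespace Fermat.Agent.S31Lib

/-- Newton sums of an operator `T = τ + ℓ τ⁻¹`. -/
theorem kappa_newton {R X J G : Type*} [CommRing R] [AddCommGroup X] [AddCommGroup J] [Group G]
    [DistribMulAction G J] (ρ : R →+* AddMonoid.End X) (κ : X →+ J) (T : R) (ℓ : ℕ) (τ : G)
    (h : ∀ ψ, κ (ρ T ψ) = τ • κ ψ + ℓ • τ⁻¹ • κ ψ) (k : ℕ) :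
    ∀ ψ : X, κ (ρ (newton T (ℓ : R) k) ψ) = τ ^ k • κ ψ + ℓ ^ k • (τ ^ k)⁻¹ • κ ψ := by
  induction k using Nat.strong_induction_on with
  | _ k ih =>
    match k with
    | 0 =>
      intro ψ
      have : ρ (2 : R) ψ = ψ + ψ := by
        rw [← one_add_one_eq_two, map_add, map_one]; rfl
      simp [this]
    | 1 =>
      intro ψ
      simpa using h ψ
    | (k + 2) =>
      intro ψ
      have e1 : ρ (newton T (ℓ : R) (k + 2)) ψ =
          ρ (newton T (ℓ : R) (k + 1)) (ρ T ψ) - ℓ • ρ (newton T (ℓ : R) k) ψ := by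
        rw [newton_add_two, map_sub, mul_comm T, map_mul, map_mul, map_natCast]
        rfl
      rw [e1, map_sub, map_nsmul, ih (k + 1) (by omega), ih k (by omega), h ψ]
      have c1 : τ ^ (k + 1) • τ • κ ψ = τ ^ (k + 2) • κ ψ := by
        rw [smul_smul, ← pow_succ]
      have c2 : τ ^ (k + 1) • τ⁻¹ • κ ψ = τ ^ k • κ ψ := by
        rw [smul_smul, pow_succ, mul_inv_cancel_right]
      have c3 : (τ ^ (k + 1))⁻¹ • τ • κ ψ = (τ ^ k)⁻¹ • κ ψ := by
        rw [smul_smul, pow_succ', mul_inv_rev, inv_mul_cancel_right]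
      have c4 : (τ ^ (k + 1))⁻¹ • τ⁻¹ • κ ψ = (τ ^ (k + 2))⁻¹ • κ ψ := by
        rw [smul_smul, ← mul_inv_rev, ← pow_succ']
      simp only [smul_add, smul_comm _ ℓ, c1, c2, c3, c4]
      rw [smul_smul ℓ (ℓ ^ (k + 1)), ← pow_succ', smul_smul ℓ (ℓ ^ k), ← pow_succ']
      abel

/-- the group theoretic step -/
theorem smul_eq_of_mem_normal {J G : Type*} [AddCommGroup J] [Group G] [DistribMulAction G J]
    (U : Subgroup G) (hU : U.Normal) (x : J) (hx : ∀ u ∈ U, u • x = x) (σ a b : G)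
    (hσ : ∀ g : G, σ • g • x = g • x) (hab : a⁻¹ * σ * b ∈ U) :
    a • x = b • x ∧ a⁻¹ • x = b⁻¹ • x := by
  constructor
  · have h1 : a • x = a • (a⁻¹ * σ * b) • x := by rw [hx _ hab]
    rw [h1, smul_smul]
    have : a * (a⁻¹ * σ * b) = σ * b := by group
    rw [this, mul_smul, hσ]
  · have hσ1 : σ⁻¹ • x = x := by
      have := hσ 1
      rw [one_smul] at this
      rw [inv_smul_eq_iff, this]
    have h2 : b * (a⁻¹ * σ * b) * b⁻¹ ∈ U := hU.conj_mem _ hab b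
    have h3 : a⁻¹ = b⁻¹ * (b * (a⁻¹ * σ * b) * b⁻¹) * σ⁻¹ := by group
    rw [h3, mul_smul, hσ1, mul_smul, hx _ h2]

/-- an element of a free `ℤ`-module of finite rank killed by all homomorphisms to `ℤ/m` is
divisible by `m`. -/
theorem exists_eq_smul_of_forall_hom {M ι : Type*} [AddCommGroup M] [Finite ι]
    (b : Module.Basis ι ℤ M) (m : ℕ) (φ : M)
    (h : ∀ ψ : M →ₗ[ℤ] ZMod m, ψ φ = 0) : ∃ φ' : M, φ = (m : ℤ) • φ' := by
  classical
  have := Fintype.ofFinite ι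
  have h1 : ∀ i, (m : ℤ) ∣ b.repr φ i := by
    intro i
    have := h ((Int.castAddHom (ZMod m)).toIntLinearMap ∘ₗ b.coord i)
    rw [← ZMod.intCast_zmod_eq_zero_iff_dvd]
    simpa using this
  choose c hc using h1
  refine ⟨∑ i, c i • b i, ?_⟩
  rw [Finset.smul_sum]
  conv_lhs => rw [← b.sum_repr φ]
  refine Finset.sum_congr rfl fun i _ => ?_
  rw [hc i, mul_smul]

/-- Artin-Rees for a lattice of endomorphisms. -/
theorem exists_bound {H M : Type*} [AddCommGroup H] [AddCommGroup M] [Module.Finite ℤ M]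
    [Module.Free ℤ M] (Rm : H →+ Module.End ℤ M) (hinj : Function.Injective Rm) (p : ℕ) :
    ∃ c : ℕ, ∀ (n : ℕ) (t : H),
      (∀ (ψ : M →ₗ[ℤ] ZMod (p ^ (n + c))) (φ : M), ψ (Rm t φ) = 0) →
      ∃ t' : H, t = (p ^ n : ℕ) • t' := by
  classical
  let b := Module.Free.chooseBasis ℤ M
  obtain ⟨c, hc⟩ := Ideal.exists_pow_inf_eq_pow_smul (Ideal.span {(p : ℤ)})
    (LinearMap.range Rm.toIntLinearMap)
  refine ⟨c, fun n t ht => ?_⟩
  have h1 : ∀ φ : M, ∃ φ' : M, Rm t φ = ((p ^ (n + c) : ℕ) : ℤ) • φ' := fun φ =>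
    exists_eq_smul_of_forall_hom b _ _ fun ψ => ht ψ φ
  choose g hg using h1
  have h2 : Rm t = ((p ^ (n + c) : ℕ) : ℤ) • b.constr ℤ (fun i => g (b i)) := by
    refine b.ext fun i => ?_
    rw [LinearMap.smul_apply, Module.Basis.constr_basis, hg]
  have h3 : Rm t ∈ Ideal.span {(p : ℤ)} ^ (n + c) • (⊤ : Submodule ℤ (Module.End ℤ M)) := by
    rw [h2]
    refine Submodule.smul_mem_smul ?_ Submodule.mem_top
    rw [Nat.cast_pow]
    exact Ideal.pow_mem_pow (Ideal.mem_span_singleton_self _) _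
  have h4 : Rm t ∈ Ideal.span {(p : ℤ)} ^ (n + c) • (⊤ : Submodule ℤ (Module.End ℤ M)) ⊓
      LinearMap.range Rm.toIntLinearMap := ⟨h3, ⟨t, rfl⟩⟩
  rw [hc (n + c) (by omega), Nat.add_sub_cancel] at h4
  have h5 : Rm t ∈ Ideal.span {(p : ℤ)} ^ n • LinearMap.range Rm.toIntLinearMap :=
    Submodule.smul_mono le_rfl inf_le_right h4
  rw [Ideal.span_singleton_pow, Submodule.ideal_span_singleton_smul,
    Submodule.mem_smul_pointwise_iff_exists] at h5
  obtain ⟨_, ⟨t', rfl⟩, ht'⟩ := h5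
  refine ⟨t', hinj ?_⟩
  rw [← ht', map_nsmul]
  simp

theorem finite_hom_zmod {M : Type*} [AddCommGroup M] [Module.Finite ℤ M] [Module.Free ℤ M]
    (m : ℕ) [NeZero m] : Finite (M →ₗ[ℤ] ZMod m) := by
  let b := Module.Free.chooseBasis ℤ M
  exact Finite.of_equiv _ (b.constr ℤ (M' := ZMod m)).toEquiv

end Fermat.Agent.S31Lib
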