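import Fermat.Agent.S31.Main
import Fermat.Agent.ES.Defs
import Fermat.Prelude.Def_ModularCurve_HeckeModule
import Fermat.Prelude.Def_ModularCurve_PeriodHomPair
import Fermat.Prelude.Thm_ModularForm_heckeT_slash_eq_self_of_mem_Gamma0

/-!
# S31: definitions for the proof of `TraceRigid`

* `IsTransfer N ℓ γ γ'` : `δ_x γ = γ'_x δ_{π x}` for the standard representatives `δ_x` of `T_ℓ`;
* `ESInput N p` : the interface with the Eichler-Shimura cluster.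
-/

set_option autoImplicit false

noncomputable section

namespace Fermat.Agent.S31Lib

open CongruenceSubgroup Matrix.SpecialLinearGroup ModularCurve
open Fermat.Agent.S53Lib (GQ)
open P2MW.S_ModularForm_heckeT_slash_eq_self_of_mem_Gamma0.ModularForm.HeckeSlashInvariance
open scoped MatrixGroups

/-- `γ'` is a transfer family for `γ` with respect to the Hecke operator `T_ℓ`. -/
def IsTransfer (N ℓ : ℕ) (γ : Gamma0 N) (γ' : OnePoint (ZMod ℓ) → Gamma0 N) : Prop :=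
  ∃ π : Equiv.Perm (OnePoint (ZMod ℓ)), ∀ x,
    heckeRep ℓ x * mapGL ℝ (γ : SL(2, ℤ)) = mapGL ℝ (γ' x : SL(2, ℤ)) * heckeRep ℓ (π x)

/-- the characters of `Γ₀(N)` which correspond to `n`-torsion points of `J₀(N)`. -/
def InH (N n : ℕ) (χ : Gamma0 N →* ℂˣ) : Prop := ESLib.IsEllPar χ ∧ χ ^ n = 1

/-- `χ' = T_ℓ χ`. -/
def IsHeckeChar (N ℓ : ℕ) (χ χ' : Gamma0 N →* ℂˣ) : Prop :=
  ∀ (γ : Gamma0 N) (γ' : OnePoint (ZMod ℓ) → Gamma0 N), IsTransfer N ℓ γ γ' →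
    χ' γ = ∏ᶠ x, χ (γ' x)

/-- The interface with the Eichler-Shimura cluster. -/
structure ESInput (N p : ℕ) [NeZero N] : Prop where
  /-- inertia outside `N p` acts trivially on `p`-power torsion -/
  inertia : ∀ q : ℕ, q.Prime → ¬ q ∣ N * p →
    ∀ P : ValuationSubring (AlgebraicClosure ℚ), P.LiesOverPrime q →
      ∀ σ ∈ P.inertiaSubgroupIn ℚ, ∀ x : JZero N, (∃ n : ℕ, p ^ n • x = 0) → σ • x = x
  /-- the Eichler-Shimura relation on `p`-power torsion -/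
  frob : ∀ (ℓ : ℕ) (hℓ : ℓ.Prime), ¬ ℓ ∣ N * p →
    ∀ A : ValuationSubring (AlgebraicClosure ℚ), A.LiesOverPrime ℓ →
      ∀ σ : GQ, A.IsFrobeniusAt σ ℓ → ∀ x : JZero N, (∃ n : ℕ, p ^ n • x = 0) →
        σ • σ • x - heckeOperatorBar N ⟨ℓ, hℓ⟩ (σ • x) + ℓ • x = 0
  /-- `p`-power torsion points have open stabilisers -/
  stab : ∀ x : JZero N, (∃ n : ℕ, p ^ n • x = 0) →
    ∃ L : IntermediateField ℚ (AlgebraicClosure ℚ), FiniteDimensional ℚ L ∧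
      ∀ σ : GQ, (∀ y ∈ L, σ y = y) → σ • x = x
  /-- the Kummer embedding of characters into the torsion of the Jacobian -/
  kummer : ∀ n : ℕ, ∃ ι : (Gamma0 N →* ℂˣ) → JZero N,
    (∀ χ χ', InH N (p ^ n) χ → InH N (p ^ n) χ' → ι (χ * χ') = ι χ + ι χ') ∧
    (∀ χ, InH N (p ^ n) χ → ι χ = 0 → χ = 1) ∧
    (∀ (ℓ : ℕ) (hℓ : ℓ.Prime), ¬ ℓ ∣ N * p → ∀ χ χ', InH N (p ^ n) χ → InH N (p ^ n) χ' →
      IsHeckeChar N ℓ χ χ' → ι χ' = heckeOperatorBar N ⟨ℓ, hℓ⟩ (ι χ))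

end Fermat.Agent.S31Lib
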