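import Fermat.Agent.S31.TRDefs
import Fermat.Agent.S22.Main.Final

/-!
# S31 library, leaf (TF): existence of transfer families
-/

set_option autoImplicit false

noncomputable section

namespace Fermat.Agent.S31Lib

open CongruenceSubgroup Matrix.SpecialLinearGroup ModularCurve
open P2MW.S_ModularForm_heckeT_slash_eq_self_of_mem_Gamma0.ModularForm.HeckeSlashInvariance
open scoped MatrixGroups

/-- (TF) -/
theorem exists_transfer {N ℓ : ℕ} (hℓ : ℓ.Prime) (hℓN : ¬ ℓ ∣ N) (γ : Gamma0 N) :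
    ∃ γ' : OnePoint (ZMod ℓ) → Gamma0 N, IsTransfer N ℓ γ γ' := by
  have : Fact ℓ.Prime := ⟨hℓ⟩
  have hcN : (N : ℤ) ∣ (γ : SL(2, ℤ)) 1 0 :=
    (ZMod.intCast_zmod_eq_zero_iff_dvd _ _).mp (Gamma0_mem.mp γ.2)
  choose g hg hmul using fun x => heckeRep_mul hℓN (γ : SL(2, ℤ)) hcN x
  exact ⟨fun x => ⟨g x, Gamma0_mem.mpr ((ZMod.intCast_zmod_eq_zero_iff_dvd _ _).mpr (hg x))⟩,
    MulAction.toPerm (redMatrix ℓ (γ : SL(2, ℤ))), hmul⟩

end Fermat.Agent.S31Lib
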