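import Fermat.Agent.S31.Main
import Fermat.Agent.S31.TRAbs
import Fermat.Agent.S31.CycloPow
import Fermat.Agent.ES.KDefs

/-!
# S31: `TraceRigid` from the trunk `ESLib.IsESData` of the Eichler-Shimura cluster
-/

set_option autoImplicit false

noncomputable section

namespace Fermat.Agent.S31Lib

open CuspForm
open Fermat.Agent.S53Lib (GQ)
open Fermat.Agent.ESLib (TT0 IsESData redM)

/-- Newton sums of `g + ℓ g⁻¹` in a non commutative ring. -/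
theorem map_newton_eq {R B : Type*} [CommRing R] [Ring B] (f : R →+* B) (T : R) (ℓ : ℕ) (g h : B)
    (hgh : g * h = 1) (hhg : h * g = 1) (hT : f T = g + (ℓ : B) * h) (k : ℕ) :
    f (newton T (ℓ : R) k) = g ^ k + (ℓ : B) ^ k * h ^ k := by
  induction k using Nat.strong_induction_on with
  | _ k ih =>
    match k with
    | 0 => simp [map_ofNat, one_add_one_eq_two]
    | 1 => simpa using hT
    | (k + 2) =>
      rw [newton_add_two, map_sub, map_mul, map_mul, map_natCast, ih (k + 1) (by omega),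
        ih k (by omega), hT]
      have c1 : g * h ^ (k + 1) = h ^ k := by rw [pow_succ', ← mul_assoc, hgh, one_mul]
      have c2 : h * g ^ (k + 1) = g ^ k := by rw [pow_succ', ← mul_assoc, hhg, one_mul]
      have hc : ∀ (j : ℕ) (x : B), x * (ℓ : B) ^ j = (ℓ : B) ^ j * x := fun j x =>
        ((Nat.cast_commute ℓ x).pow_left j).eq.symm
      calc (g + (ℓ : B) * h) * (g ^ (k + 1) + (ℓ : B) ^ (k + 1) * h ^ (k + 1)) -
            (ℓ : B) * (g ^ k + (ℓ : B) ^ k * h ^ k)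
          = g * g ^ (k + 1) + (ℓ : B) ^ (k + 1) * (g * h ^ (k + 1)) + (ℓ : B) * (h * g ^ (k + 1))
            + (ℓ : B) * (ℓ : B) ^ (k + 1) * (h * h ^ (k + 1))
            - (ℓ : B) * g ^ k - (ℓ : B) * (ℓ : B) ^ k * h ^ k := by
            rw [add_mul, mul_add, mul_add, mul_add, ← mul_assoc g, hc (k + 1) g,
              mul_assoc ((ℓ : B) ^ (k + 1)) g, mul_assoc (ℓ : B) h (g ^ (k + 1)),
              mul_assoc (ℓ : B) h, ← mul_assoc h, hc (k + 1) h, mul_assoc ((ℓ : B) ^ (k + 1)) h,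
              ← mul_assoc (ℓ : B) ((ℓ : B) ^ (k + 1)), ← mul_assoc (ℓ : B) ((ℓ : B) ^ k)]
            abel
        _ = g ^ (k + 2) + (ℓ : B) ^ (k + 2) * h ^ (k + 2) := by
            rw [c1, c2, ← pow_succ', ← pow_succ', ← pow_succ', ← pow_succ']
            abel

variable {N : ℕ} [NeZero N] {S : Finset ℕ}

theorem heckeAlgebra_le_TT0 (hNS : ∀ q : ℕ, q.Prime → q ∣ N → q ∈ S) :
    heckeAlgebra N 2 (↑S : Set ℕ) ≤ heckeAlgebra N 2 {q : ℕ | q ∣ N} := by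
  refine Algebra.adjoin_le ?_
  rintro t (⟨ℓ, hℓ, hℓN, -, rfl⟩ | ⟨q, hqN, hq, hqS, rfl⟩)
  · exact heckeTLin_mem_heckeAlgebra hℓ hℓN hℓN
  · exact absurd (hNS q hq hqN) (by simpa using hqS)

/-- the inclusion of the Hecke algebra away from `S` into the one away from `N`. -/
def incT (hNS : ∀ q : ℕ, q.Prime → q ∣ N → q ∈ S) : heckeAlgebra N 2 (↑S : Set ℕ) →+* TT0 N :=
  (Subalgebra.inclusion (heckeAlgebra_le_TT0 hNS)).toRingHom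

theorem incT_injective (hNS : ∀ q : ℕ, q.Prime → q ∣ N → q ∈ S) :
    Function.Injective (incT (S := S) hNS) :=
  Subalgebra.inclusion_injective _

theorem incT_T (hNS : ∀ q : ℕ, q.Prime → q ∣ N → q ∈ S) {ℓ : ℕ} (hℓ : ℓ.Prime) (hℓN : ¬ ℓ ∣ N)
    (hℓS : ℓ ∉ (↑S : Set ℕ)) :
    incT hNS (heckeAlgebra.T hℓ hℓN hℓS) = heckeAlgebra.T hℓ hℓN hℓN := rfl

/-- reduction modulo `p ^ n` as a ring homomorphism -/
def redH (r p n : ℕ) : Matrix (Fin r) (Fin r) ℤ →+* Matrix (Fin r) (Fin r) (ZMod (p ^ n)) :=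
  (Int.castRingHom (ZMod (p ^ n))).mapMatrix

theorem redH_apply (r p n : ℕ) (M : Matrix (Fin r) (Fin r) ℤ) : redH r p n M = redM p n M := rfl

theorem traceRigid_of_isESData {p : ℕ} (hp : p.Prime) (hpS : p ∈ S)
    (hNS : ∀ q : ℕ, q.Prime → q ∣ N → q ∈ S) {r : ℕ}
    {Θ : TT0 N →+* Matrix (Fin r) (Fin r) ℤ}
    {ρ : (n : ℕ) → GQ →* Matrix (Fin r) (Fin r) (ZMod (p ^ n))} (hES : IsESData N p r Θ ρ) :
    TraceRigid p N S := by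
  classical
  -- the faithful action on `ℤ ^ r`
  let Rm : heckeAlgebra N 2 (↑S : Set ℕ) →+ Module.End ℤ (Fin r → ℤ) :=
    ((Matrix.toLinAlgEquiv' (R := ℤ) (n := Fin r)).toRingEquiv.toRingHom.comp
      (Θ.comp (incT hNS))).toAddMonoidHom
  have hRm : ∀ t φ, Rm t φ = (Θ (incT hNS t)).mulVec φ := fun _ _ => rfl
  have hRinj : Function.Injective Rm := by
    intro s t hst
    apply incT_injective hNS
    apply hES.inj
    exact (Matrix.toLinAlgEquiv' (R := ℤ) (n := Fin r)).injective hst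
  obtain ⟨c, hc⟩ := exists_bound Rm hRinj p
  intro n₀
  set m := n₀ + c with hm
  have hne : ∀ ℓ : ℕ, ℓ ∉ S → ℓ ≠ p := fun ℓ h h' => h (h' ▸ hpS)
  have hNp : ∀ ℓ : ℕ, ℓ.Prime → ℓ ∉ S → ¬ ℓ ∣ N * p := by
    intro ℓ hℓ hℓS h
    rcases (hℓ.dvd_mul).1 h with h | h
    · exact hℓS (hNS ℓ hℓ h)
    · exact hne ℓ hℓS ((Nat.prime_dvd_prime_iff_eq hℓ hp).1 h)
  obtain ⟨L, hLfd, hL⟩ := hES.level m
  obtain ⟨ω, ⟨Lω, hLωfd, hLω⟩, hωF, hωI⟩ := exists_cyclo_pow p hp m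
  have hfd : FiniteDimensional ℚ (L ⊔ Lω : IntermediateField ℚ (AlgebraicClosure ℚ)) :=
    IntermediateField.finiteDimensional_sup _ _
  obtain ⟨U, hUo, hUn, hU⟩ := exists_open_normal_le _ hfd
  refine ⟨U, hUo, hUn, ?_⟩
  intro ℓ₁ ℓ₂ h₁ h₂ hN₁ hN₂ hS₁ hS₂ A₁ A₂ τ₁ τ₂ hA₁ hA₂ hτ₁ hτ₂ k₁ k₂ q hq hqS P hP σ hσ hrel
  have hS₁' : ℓ₁ ∉ S := by simpa using hS₁
  have hS₂' : ℓ₂ ∉ S := by simpa using hS₂
  let f : heckeAlgebra N 2 (↑S : Set ℕ) →+* Matrix (Fin r) (Fin r) (ZMod (p ^ m)) :=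
    (redH r p m).comp (Θ.comp (incT hNS))
  -- `T = g + ℓ g⁻¹`
  have hT : ∀ (ℓ : ℕ) (hℓ : ℓ.Prime) (hℓN : ¬ ℓ ∣ N) (hℓS : ℓ ∉ (↑S : Set ℕ))
      (A : ValuationSubring (AlgebraicClosure ℚ)) (τ : GQ), ℓ ∉ S → A.LiesOverPrime ℓ →
      A.IsFrobeniusAt τ ℓ → ∀ k : ℕ,
      f (newton (heckeAlgebra.T hℓ hℓN hℓS) (ℓ : _) k) =
        ρ m (τ ^ k) + (ℓ : Matrix (Fin r) (Fin r) (ZMod (p ^ m))) ^ k * ρ m ((τ ^ k)⁻¹) := by
    intro ℓ hℓ hℓN hℓS A τ hℓS' hA hτ k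
    have e1 := hES.es m ℓ hℓ hℓN (hne ℓ hℓS') A hA τ hτ
    have hgh : ρ m τ * ρ m τ⁻¹ = 1 := by rw [← map_mul, mul_inv_cancel, map_one]
    have hhg : ρ m τ⁻¹ * ρ m τ = 1 := by rw [← map_mul, inv_mul_cancel, map_one]
    have e2 : f (heckeAlgebra.T hℓ hℓN hℓS) =
        ρ m τ + (ℓ : Matrix (Fin r) (Fin r) (ZMod (p ^ m))) * ρ m τ⁻¹ := by
      have e3 : f (heckeAlgebra.T hℓ hℓN hℓS) =
          redM p m (Θ (heckeAlgebra.T hℓ hℓN hℓN)) := rfl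
      have e4 := congrArg (· * ρ m τ⁻¹) e1
      simp only [add_mul, sub_mul, mul_assoc, hgh, mul_one, zero_mul] at e4
      rw [e3, eq_comm, ← sub_eq_zero, ← e4]
      abel
    rw [map_newton_eq f _ ℓ _ _ hgh hhg e2 k, map_pow, ← inv_pow, map_pow]
  -- the cyclotomic character
  have hcyc : ((ℓ₁ : ZMod (p ^ m)) ^ k₁) = ((ℓ₂ : ZMod (p ^ m)) ^ k₂) := by
    have e1 : ω ((τ₁ ^ k₁)⁻¹ * σ * τ₂ ^ k₂) = 1 :=
      hLω _ fun x hx => hU _ hrel x (le_sup_right (a := L) hx)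
    rw [map_mul, map_mul, map_inv, map_pow, map_pow, hωI q hq (hne q hqS) P hP σ hσ, mul_one,
      inv_mul_eq_one] at e1
    have e2 := congrArg (fun u : (ZMod (p ^ m))ˣ => (u : ZMod (p ^ m))) e1
    simp only [Units.val_pow_eq_pow_val] at e2
    rw [hωF ℓ₁ h₁ (hne _ hS₁') A₁ hA₁ τ₁ hτ₁, hωF ℓ₂ h₂ (hne _ hS₂') A₂ hA₂ τ₂ hτ₂] at e2
    exact e2
  have hcycM : (ℓ₁ : Matrix (Fin r) (Fin r) (ZMod (p ^ m))) ^ k₁ =
      (ℓ₂ : Matrix (Fin r) (Fin r) (ZMod (p ^ m))) ^ k₂ := by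
    have := congrArg (algebraMap (ZMod (p ^ m)) (Matrix (Fin r) (Fin r) (ZMod (p ^ m)))) hcyc
    simpa using this
  -- the two powers of Frobenius have the same image
  have hσ1 : ρ m σ = 1 := hES.unram m q hq (hNp q hq hqS) P hP σ hσ
  have hu : ρ m ((τ₁ ^ k₁)⁻¹ * σ * τ₂ ^ k₂) = 1 :=
    hL _ fun x hx => hU _ hrel x (le_sup_left (b := Lω) hx)
  have hab : ρ m (τ₁ ^ k₁) = ρ m (τ₂ ^ k₂) := by
    have e1 : τ₂ ^ k₂ = σ⁻¹ * (τ₁ ^ k₁ * ((τ₁ ^ k₁)⁻¹ * σ * τ₂ ^ k₂)) := by group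
    have hσ2 : ρ m σ⁻¹ = 1 := by
      have : ρ m σ⁻¹ * ρ m σ = 1 := by rw [← map_mul, inv_mul_cancel, map_one]
      rwa [hσ1, mul_one] at this
    rw [e1, map_mul, map_mul, hu, hσ2, one_mul, mul_one]
  have hab' : ρ m ((τ₁ ^ k₁)⁻¹) = ρ m ((τ₂ ^ k₂)⁻¹) := by
    have e1 : ρ m ((τ₁ ^ k₁)⁻¹) * ρ m (τ₂ ^ k₂) = 1 := by
      rw [← hab, ← map_mul, inv_mul_cancel, map_one]
    have e2 : ρ m (τ₂ ^ k₂) * ρ m ((τ₂ ^ k₂)⁻¹) = 1 := by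
      rw [← map_mul, mul_inv_cancel, map_one]
    calc ρ m ((τ₁ ^ k₁)⁻¹) = ρ m ((τ₁ ^ k₁)⁻¹) * (ρ m (τ₂ ^ k₂) * ρ m ((τ₂ ^ k₂)⁻¹)) := by
          rw [e2, mul_one]
      _ = ρ m ((τ₂ ^ k₂)⁻¹) := by rw [← mul_assoc, e1, one_mul]
  have hzero : f (newton (heckeAlgebra.T h₁ hN₁ hS₁ : heckeAlgebra N 2 (↑S : Set ℕ))
      (ℓ₁ : _) k₁ - newton (heckeAlgebra.T h₂ hN₂ hS₂ : heckeAlgebra N 2 (↑S : Set ℕ))
      (ℓ₂ : _) k₂) = 0 := by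
    rw [map_sub, hT ℓ₁ h₁ hN₁ hS₁ A₁ τ₁ hS₁' hA₁ hτ₁, hT ℓ₂ h₂ hN₂ hS₂ A₂ τ₂ hS₂' hA₂ hτ₂, hab,
      hab', hcycM, sub_self]
  obtain ⟨t', ht'⟩ := hc n₀ _ (by
    intro ψ φ
    rw [hRm]
    set Mt := Θ (incT hNS (newton (heckeAlgebra.T h₁ hN₁ hS₁ : heckeAlgebra N 2 (↑S : Set ℕ))
      (ℓ₁ : _) k₁ - newton (heckeAlgebra.T h₂ hN₂ hS₂ : heckeAlgebra N 2 (↑S : Set ℕ))
      (ℓ₂ : _) k₂)) with hMt
    have hdiv : ∀ i j, ((p ^ m : ℕ) : ℤ) ∣ Mt i j := by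
      intro i j
      have := congrFun (congrFun hzero i) j
      rw [← ZMod.intCast_zmod_eq_zero_iff_dvd]
      exact this
    choose B hB using hdiv
    have : Mt.mulVec φ = ((p ^ m : ℕ) : ℤ) • (Matrix.of B).mulVec φ := by
      ext i
      simp only [Matrix.mulVec, dotProduct, Pi.smul_apply, smul_eq_mul, Finset.mul_sum,
        Matrix.of_apply]
      refine Finset.sum_congr rfl fun j _ => ?_
      rw [hB i j, mul_assoc]
    rw [this, map_smul, zsmul_eq_mul]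
    have : (((p ^ m : ℕ) : ℤ) : ZMod (p ^ (n₀ + c))) = 0 := by
      rw [Int.cast_natCast]
      exact ZMod.natCast_self _
    rw [this, zero_mul])
  exact ⟨t', by rw [ht', nsmul_eq_mul, Nat.cast_pow]⟩

end Fermat.Agent.S31Lib
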